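/-
S17 / SL  (Mathlib only).  Siegel's lemma in Bombieri-Vaaler form, by pigeonhole.  DEFINITIONS.

A : k × ι rational matrix, J0 : Fin k → ι with A_J0 = 1.   mnr A J = the maximal minor on the columns J.
dn A = lcm of the denominators of the maximal minors.
lam1 A = {x ∈ ℤ^ι | A x ∈ ℤ^k}.          MAIN FACT (Idx.lean): (lam1 A).index = dn A.
-/
import Mathlib

set_option autoImplicit false

namespace Fermat.Agent.S17.SL

open Matrix

variable {k : ℕ} {ι : Type*} [Fintype ι]

/-- maximal minor -/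
noncomputable def mnr {R : Type*} [CommRing R] (A : Matrix (Fin k) ι R) (J : Fin k → ι) : R :=
  (A.submatrix id J).det

/-- lcm of the denominators of the maximal minors -/
noncomputable def dn (A : Matrix (Fin k) ι ℚ) : ℕ :=
  Finset.univ.lcm (fun J : Fin k → ι => (mnr A J).den)

/-- cast of an integer vector -/
def cst {κ : Type*} (x : κ → ℤ) : κ → ℚ := fun j => (x j : ℚ)

/-- integer vectors with integral image -/
def lam1 (A : Matrix (Fin k) ι ℚ) : AddSubgroup (ι → ℤ) where
  carrier := {x | ∃ z : Fin k → ℤ, A.mulVec (cst x) = cst z}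
  zero_mem' := ⟨0, by ext i; simp [cst, Matrix.mulVec, dotProduct]⟩
  add_mem' := by
    rintro x y ⟨z, hz⟩ ⟨w, hw⟩
    refine ⟨z + w, ?_⟩
    have h1 : cst (x + y) = cst x + cst y := by ext j; simp [cst]
    have h2 : cst (z + w) = cst z + cst w := by ext j; simp [cst]
    rw [h1, h2, Matrix.mulVec_add, hz, hw]
  neg_mem' := by
    rintro x ⟨z, hz⟩
    refine ⟨-z, ?_⟩
    have h1 : cst (-x) = -cst x := by ext j; simp [cst]
    have h2 : cst (-z) = -cst z := by ext j; simp [cst]
    rw [h1, h2, Matrix.mulVec_neg, hz]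

theorem mem_lam1 {A : Matrix (Fin k) ι ℚ} {x : ι → ℤ} :
    x ∈ lam1 A ↔ ∃ z : Fin k → ℤ, A.mulVec (cst x) = cst z := Iff.rfl

end Fermat.Agent.S17.SL
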