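/-
S17 / SL-FACT  (Mathlib only).   A = C0⁻¹ C with C integral and ONTO ℤ^k.

PROOF.  L := ℤ-span of the columns of A in (Fin k → ℚ): finitely generated and torsion free, so free
(`Module.free_of_finite_type_torsion_free'`); b : Basis (Fin n) ℤ L (`Module.finBasis`).
n = k:  the vectors (b i : Fin k → ℚ) are ℤ-independent, hence ℚ-independent
(`LinearIndependent.iff_fractionRing`), and they span ℚ^k over ℚ because L contains the standard basis
(= the columns J0 i of A, by h1).  So finrank gives n = k; reindex b by Fin k.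
C i j := b.repr ⟨column j of A, _⟩ i.   Then A = Bm * C (Bm = matrix with columns b i).
C is onto: for z : Fin k → ℤ the element ∑ z_i b_i of L is a ℤ-combination ∑_j x_j col_j
(`Submodule.mem_span_range_iff_exists_fun`), apply b.repr.
1 = A_J0 = Bm * C_J0, so C_J0 is invertible over ℚ (det ≠ 0) and C_J0 * A = C_J0 * Bm * C = C
(`Matrix.mul_eq_one_comm`).
-/
import Fermat.Agent.S17.SL.Defs

set_option autoImplicit false

namespace Fermat.Agent.S17.SL

open Matrix

variable {k : ℕ} {ι : Type*} [Fintype ι] [DecidableEq ι]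

theorem exists_factor (A : Matrix (Fin k) ι ℚ) (J0 : Fin k → ι) (h1 : A.submatrix id J0 = 1) :
    ∃ C : Matrix (Fin k) ι ℤ, Function.Surjective C.mulVec ∧ mnr C J0 ≠ 0 ∧
      (C.submatrix id J0).map (Int.cast : ℤ → ℚ) * A = C.map (Int.cast : ℤ → ℚ) := by
  classical
  set L : Submodule ℤ (Fin k → ℚ) := Submodule.span ℤ (Set.range A.col) with hL
  have hcolmem : ∀ j, A.col j ∈ L := fun j => Submodule.subset_span ⟨j, rfl⟩
  have hfg : Module.Finite ℤ L := Module.Finite.span_of_finite ℤ (Set.finite_range _)
  have hfree : Module.Free ℤ L := Module.free_of_finite_type_torsion_free'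
  -- the rank
  have hle : Module.finrank ℤ L ≤ k := by
    have hli : LinearIndependent ℤ (fun i => ((Module.finBasis ℤ L i : L) : Fin k → ℚ)) :=
      (Module.finBasis ℤ L).linearIndependent.map' L.subtype (Submodule.ker_subtype L)
    have hli' := (LinearIndependent.iff_fractionRing ℤ ℚ).1 hli
    have := hli'.fintype_card_le_finrank
    simpa using this
  have hge : k ≤ Module.finrank ℤ L := by
    have hcol : ∀ i, A.col (J0 i) = Pi.single i (1 : ℚ) := by
      intro i
      funext r
      have := congrFun (congrFun h1 r) i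
      rw [Matrix.submatrix_apply, Matrix.one_apply] at this
      show A r (J0 i) = _
      rw [id] at this
      rw [this, Pi.single_apply]
    have hli : LinearIndependent ℤ (fun i : Fin k => (⟨A.col (J0 i), hcolmem _⟩ : L)) := by
      apply LinearIndependent.of_comp L.subtype
      rw [LinearIndependent.iff_fractionRing ℤ ℚ]
      have h2 : (L.subtype ∘ fun i : Fin k => (⟨A.col (J0 i), hcolmem _⟩ : L)) =
          fun i => Pi.basisFun ℚ (Fin k) i := by
        funext i
        rw [Pi.basisFun_apply]
        exact hcol i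
      rw [h2]
      exact (Pi.basisFun ℚ (Fin k)).linearIndependent
    have := hli.fintype_card_le_finrank
    simpa using this
  have hrank : Module.finrank ℤ L = k := le_antisymm hle hge
  let b : Module.Basis (Fin k) ℤ L := Module.finBasisOfFinrankEq ℤ L hrank
  let C : Matrix (Fin k) ι ℤ := fun i j => b.repr ⟨A.col j, hcolmem j⟩ i
  let Bm : Matrix (Fin k) (Fin k) ℚ := fun r i => (b i : Fin k → ℚ) r
  have hA : A = Bm * C.map (Int.cast : ℤ → ℚ) := by
    ext r j
    have h2 := b.sum_repr ⟨A.col j, hcolmem j⟩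
    have h3 : ((∑ i, (b.repr ⟨A.col j, hcolmem j⟩) i • b i : L) : Fin k → ℚ) r = A r j :=
      congrFun (congrArg Subtype.val h2) r
    rw [Matrix.mul_apply, ← h3, AddSubmonoidClass.coe_finsetSum, Finset.sum_apply]
    apply Finset.sum_congr rfl
    intro i _
    show ((b.repr ⟨A.col j, hcolmem j⟩ i) • (b i : Fin k → ℚ)) r = _
    rw [Pi.smul_apply, zsmul_eq_mul, mul_comm]
    rfl
  have hone : Bm * (C.submatrix id J0).map (Int.cast : ℤ → ℚ) = 1 := by
    rw [← h1]
    conv_rhs => rw [hA]
    rfl
  have hone' : (C.submatrix id J0).map (Int.cast : ℤ → ℚ) * Bm = 1 :=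
    mul_eq_one_comm.1 hone
  refine ⟨C, ?_, ?_, ?_⟩
  · intro z
    have hy : ((∑ i, z i • b i : L) : Fin k → ℚ) ∈ Submodule.span ℤ (Set.range A.col) :=
      (∑ i, z i • b i : L).2
    obtain ⟨x, hx⟩ := (Submodule.mem_span_range_iff_exists_fun ℤ).1 hy
    refine ⟨x, ?_⟩
    have hx' : ∑ j, x j • (⟨A.col j, hcolmem j⟩ : L) = ∑ i, z i • b i := by
      apply Subtype.ext
      rw [← hx, AddSubmonoidClass.coe_finsetSum]
      rfl
    have h2 := congrArg b.repr hx'
    funext i
    have h3 := DFunLike.congr_fun h2 i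
    rw [map_sum, map_sum, Finsupp.finsetSum_apply, Finsupp.finsetSum_apply] at h3
    simp only [map_smul, Finsupp.smul_apply, Module.Basis.repr_self, smul_eq_mul,
      Finsupp.single_apply, mul_ite, mul_one, mul_zero, Finset.sum_ite_eq', Finset.mem_univ,
      if_true] at h3
    rw [← h3, Matrix.mulVec, dotProduct]
    apply Finset.sum_congr rfl
    intro j _
    rw [mul_comm]
  · intro h0
    have h2 := congrArg Matrix.det hone
    rw [Matrix.det_mul, Matrix.det_one] at h2
    have h3 : ((C.submatrix id J0).map (Int.cast : ℤ → ℚ)).det = ((mnr C J0 : ℤ) : ℚ) := by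
      rw [mnr, Int.cast_det]
    rw [h3, h0] at h2
    simp at h2
  · conv_lhs => rw [hA]
    rw [← Matrix.mul_assoc, hone', Matrix.one_mul]

end Fermat.Agent.S17.SL
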