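/-
S17 / SL-GCD  (Mathlib only).   An integral k × ι matrix which is ONTO ℤ^k has a maximal minor prime to p.

PROOF.  Cb := C.map (Int.cast : ℤ → ZMod p).  Cb.mulVec is onto (ZMod p)^k (lift a vector to ℤ^k, take a
preimage, reduce: `Matrix.map_mulVec` / `RingHom.map_mulVec`).  So the columns of Cb span (ZMod p)^k; a spanning
family contains a basis (`exists_linearIndependent` / `Module.Basis.ofSpan`...), of cardinality k: J : Fin k → ι
with the columns Cb_J linearly independent, so det (Cb.submatrix id J) ≠ 0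
(`Matrix.linearIndependent_cols_iff_isUnit`, `Matrix.isUnit_iff_isUnit_det`).  det commutes with the cast
(`RingHom.map_det`, `Matrix.submatrix_map`), and (n : ZMod p) = 0 ↔ p ∣ n (`ZMod.intCast_zmod_eq_zero_iff_dvd`).
-/
import Fermat.Agent.S17.SL.Defs

set_option autoImplicit false

namespace Fermat.Agent.S17.SL

open Matrix

variable {k : ℕ} {ι : Type*} [Fintype ι] [DecidableEq ι]

theorem exists_minor_not_dvd (C : Matrix (Fin k) ι ℤ) (h : Function.Surjective C.mulVec)
    (p : ℕ) (hp : p.Prime) : ∃ J : Fin k → ι, ¬ (p : ℤ) ∣ mnr C J := by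
  have : Fact p.Prime := ⟨hp⟩
  obtain ⟨B, hB⟩ := Matrix.mulVec_surjective_iff_exists_right_inverse.1 h
  set Cb : Matrix (Fin k) ι (ZMod p) := C.map (Int.castRingHom (ZMod p)) with hCb
  have hsurj : Function.Surjective Cb.mulVec := by
    apply Matrix.mulVec_surjective_iff_exists_right_inverse.2
    refine ⟨B.map (Int.castRingHom (ZMod p)), ?_⟩
    rw [hCb, ← Matrix.map_mul, hB, Matrix.map_one _ (map_zero _) (map_one _)]
  have hspan : Submodule.span (ZMod p) (Set.range Cb.col) = ⊤ := by
    rw [← Matrix.range_mulVecLin, LinearMap.range_eq_top]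
    exact hsurj
  have hk : Module.finrank (ZMod p) (Submodule.span (ZMod p) (Set.range Cb.col)) = k := by
    rw [hspan, finrank_top, Module.finrank_fin_fun]
  obtain ⟨f, hf1, hf3⟩ : ∃ f : Fin k → (Fin k → ZMod p), (∀ i, f i ∈ Set.range Cb.col) ∧
      LinearIndependent (ZMod p) f := by
    obtain ⟨f, hf1, -, hf3⟩ :=
      Submodule.exists_fun_fin_finrank_span_eq (ZMod p) (Set.range Cb.col)
    exact ⟨f ∘ Fin.cast hk.symm, fun i => hf1 _, hf3.comp _ (Fin.cast_injective _)⟩
  choose J hJ using hf1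
  refine ⟨J, fun hdvd => ?_⟩
  have hcol : (Cb.submatrix id J).col = f := by
    funext i
    rw [← hJ i]
    rfl
  have hunit : IsUnit (Cb.submatrix id J) := by
    rw [← Matrix.linearIndependent_cols_iff_isUnit, hcol]
    exact hf3
  have hdet : IsUnit (Cb.submatrix id J).det := (Matrix.isUnit_iff_isUnit_det _).1 hunit
  have h0 : (Cb.submatrix id J).det = 0 := by
    have h1 : Cb.submatrix id J = (C.submatrix id J).map (Int.castRingHom (ZMod p)) := rfl
    rw [h1, ← RingHom.mapMatrix_apply, ← RingHom.map_det]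
    exact (ZMod.intCast_zmod_eq_zero_iff_dvd _ p).2 hdvd
  rw [h0] at hdet
  exact not_isUnit_zero hdet

/-- consequence: an integer dividing `n * minor_J` for all J divides `n`.
[induction on the prime factorisation of c, or: gcd of the minors is 1 (`Finset.gcd`), Bezout.] -/
theorem dvd_of_dvd_mul_minor (C : Matrix (Fin k) ι ℤ) (h : Function.Surjective C.mulVec)
    (c n : ℤ) (hc : ∀ J : Fin k → ι, c ∣ n * mnr C J) : c ∣ n := by
  have h1 : c ∣ (Finset.univ : Finset (Fin k → ι)).gcd (fun J => n * mnr C J) :=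
    Finset.dvd_gcd fun J _ => hc J
  rw [Finset.gcd_mul_left] at h1
  have hunit : IsUnit ((Finset.univ : Finset (Fin k → ι)).gcd (fun J => mnr C J)) := by
    rw [Int.isUnit_iff_natAbs_eq]
    by_contra hne
    obtain ⟨p, hp, hpd⟩ := Nat.exists_prime_and_dvd hne
    obtain ⟨J, hJ⟩ := exists_minor_not_dvd C h p hp
    apply hJ
    exact dvd_trans (Int.natCast_dvd.2 hpd) (Finset.gcd_dvd (Finset.mem_univ J))
  rw [hunit.dvd_mul_right] at h1
  exact dvd_normalize_iff.1 h1

end Fermat.Agent.S17.SL
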