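/-
S17 / SL-IDX  (Mathlib only).   (lam1 A).index = dn A.

PROOF.  C, C0 = C_J0, c0 = det C0 ≠ 0 from `exists_factor`.
 (a) mnr A J = mnr C J / c0      [C0 * A_J = C_J (submatrix of the identity of exists_factor), det_mul].
 (b) dn_dvd_iff: dn A ∣ n ↔ ∀ J, ∃ z : ℤ, n * mnr A J = z     [Finset.lcm_dvd_iff; q.den ∣ n ↔ n * q integral:
     `Rat.den_dvd_iff`-type lemma, prove by q = q.num / q.den, coprimality].
 (c) dn A = c0.natAbs:  c0 * mnr A J = mnr C J integral ⇒ dn A ∣ c0;  dn A * mnr C J / c0 integral for all J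
     ⇒ c0 ∣ dn A * mnr C J ⇒ c0 ∣ dn A  (`dvd_of_dvd_mul_minor`).
 (d) x ∈ lam1 A ↔ C.mulVec x ∈ range C0.mulVec    [A x = z ↔ C0 A x = C0 z ↔ C x = C0 z; C0 invertible over ℚ,
     casts injective].  So lam1 A = comap of H := range (C0.mulVec) under the surjection C.mulVec:
     `AddSubgroup.index_comap_of_surjective`.
 (e) H.index = c0.natAbs:  `Submodule.natAbs_det_equiv` with e = LinearEquiv.ofInjective (C0.mulVecLin)
     (injective since det ≠ 0: `Matrix.mulVec_injective_iff_isUnit`-like over ℚ, or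
     `Matrix.eq_zero_of_mulVec_eq_zero`), `LinearMap.det_toLin'`.
-/
import Fermat.Agent.S17.SL.Fact
import Fermat.Agent.S17.SL.Gcd

set_option autoImplicit false

namespace Fermat.Agent.S17.SL

open Matrix

variable {k : ℕ} {ι : Type*} [Fintype ι] [DecidableEq ι]

theorem dn_pos (A : Matrix (Fin k) ι ℚ) : 0 < dn A := by
  apply Nat.pos_of_ne_zero
  unfold dn
  rw [Ne, Finset.lcm_eq_zero_iff]
  rintro ⟨J, -, hJ⟩
  exact (mnr A J).den_ne_zero hJ

/-- `q.den ∣ n` iff `n * q` is an integer -/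
theorem den_dvd_iff_exists (q : ℚ) (n : ℕ) : q.den ∣ n ↔ ∃ z : ℤ, (n : ℚ) * q = z := by
  constructor
  · rintro ⟨m, rfl⟩
    refine ⟨m * q.num, ?_⟩
    have := Rat.den_mul_eq_num q
    push_cast
    rw [← this]
    ring
  · rintro ⟨z, hz⟩
    have h1 : (n : ℤ) * q.num = z * q.den := by
      have h2 : ((n : ℚ) * q) * q.den = z * q.den := by rw [hz]
      rw [mul_assoc, Rat.mul_den_eq_num] at h2
      exact_mod_cast h2
    have h3 : (q.den : ℤ) ∣ (n : ℤ) * q.num := ⟨z, by rw [h1]; ring⟩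
    have h4 : q.den ∣ n * q.num.natAbs := by
      have := Int.natAbs_dvd_natAbs.2 h3
      rwa [Int.natAbs_natCast, Int.natAbs_mul, Int.natAbs_natCast] at this
    exact (Nat.Coprime.symm q.reduced).dvd_of_dvd_mul_right h4

theorem dn_dvd_iff (A : Matrix (Fin k) ι ℚ) (n : ℕ) :
    dn A ∣ n ↔ ∀ J : Fin k → ι, ∃ z : ℤ, (n : ℚ) * mnr A J = z := by
  unfold dn
  rw [Finset.lcm_dvd_iff]
  constructor
  · intro h J
    exact (den_dvd_iff_exists _ n).1 (h J (Finset.mem_univ J))
  · intro h J _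
    exact (den_dvd_iff_exists _ n).2 (h J)

/-- the index of the image of a nonsingular integral matrix -/
theorem index_range_mulVecLin {n : ℕ} (M : Matrix (Fin n) (Fin n) ℤ) (h : M.det ≠ 0) :
    (LinearMap.range M.mulVecLin).toAddSubgroup.index = M.det.natAbs := by
  have hinj : Function.Injective M.mulVecLin := by
    rw [injective_iff_map_eq_zero]
    intro v hv
    exact Matrix.eq_zero_of_mulVec_eq_zero h hv
  let e : (Fin n → ℤ) ≃ₗ[ℤ] LinearMap.range M.mulVecLin := LinearEquiv.ofInjective _ hinj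
  have h1 := Submodule.natAbs_det_equiv (LinearMap.range M.mulVecLin) e
  have h2 : (LinearMap.range M.mulVecLin).subtype ∘ₗ
      AddMonoidHom.toIntLinearMap (e : (Fin n → ℤ) →+ LinearMap.range M.mulVecLin) =
      Matrix.toLin' M := by
    apply LinearMap.ext
    intro v
    rfl
  rw [h2, LinearMap.det_toLin'] at h1
  rw [h1]
  rfl

theorem cst_mulVec {κ κ' : Type*} [Fintype κ'] (M : Matrix κ κ' ℤ) (x : κ' → ℤ) :
    cst (M.mulVec x) = (M.map (Int.cast : ℤ → ℚ)).mulVec (cst x) := by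
  funext i
  simp [cst, Matrix.mulVec, dotProduct]

theorem cst_injective {κ : Type*} : Function.Injective (cst : (κ → ℤ) → (κ → ℚ)) := by
  intro x y h
  funext i
  have := congrFun h i
  exact Int.cast_injective this

theorem index_lam1 (A : Matrix (Fin k) ι ℚ) (J0 : Fin k → ι) (h1 : A.submatrix id J0 = 1) :
    (lam1 A).index = dn A := by
  obtain ⟨C, hsurj, hc0, hCA⟩ := exists_factor A J0 h1
  set C0 : Matrix (Fin k) (Fin k) ℤ := C.submatrix id J0 with hC0
  have hdet0 : C0.det = mnr C J0 := rfl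
  have hcastdet : (C0.map (Int.cast : ℤ → ℚ)).det = ((mnr C J0 : ℤ) : ℚ) := by
    rw [← hdet0, Int.cast_det]
  have hc0q : ((mnr C J0 : ℤ) : ℚ) ≠ 0 := Int.cast_ne_zero.2 hc0
  -- (a)
  have ha : ∀ J, ((mnr C J0 : ℤ) : ℚ) * mnr A J = ((mnr C J : ℤ) : ℚ) := by
    intro J
    have h2 : C0.map (Int.cast : ℤ → ℚ) * A.submatrix id J =
        (C.submatrix id J).map (Int.cast : ℤ → ℚ) := by
      have h3 : (C0.map (Int.cast : ℤ → ℚ) * A).submatrix id J =
          (C.map (Int.cast : ℤ → ℚ)).submatrix id J := by rw [hCA]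
      have h3' : (C.submatrix id J).map (Int.cast : ℤ → ℚ) =
          (C.map (Int.cast : ℤ → ℚ)).submatrix id J := rfl
      rw [h3', ← h3]
      ext i l
      simp [Matrix.mul_apply]
    have h4 := congrArg Matrix.det h2
    rw [Matrix.det_mul, hcastdet] at h4
    have h5 : mnr A J = (A.submatrix id J).det := rfl
    have h6 : mnr C J = (C.submatrix id J).det := rfl
    rw [h5, h4, h6, Int.cast_det]
  -- (c)
  have hdn : dn A = (mnr C J0).natAbs := by
    apply Nat.dvd_antisymm
    · rw [dn_dvd_iff]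
      intro J
      rcases Int.natAbs_eq (mnr C J0) with h | h
      · refine ⟨mnr C J, ?_⟩
        rw [← ha J]
        congr 1
        conv_rhs => rw [h]
        simp
      · refine ⟨-mnr C J, ?_⟩
        rw [Int.cast_neg, ← ha J]
        conv_rhs => rw [h]
        simp
    · have h2 : mnr C J0 ∣ (dn A : ℤ) := by
        apply dvd_of_dvd_mul_minor C hsurj
        intro J
        obtain ⟨z, hz⟩ := (dn_dvd_iff A (dn A)).1 dvd_rfl J
        refine ⟨z, ?_⟩
        have h3 : (((dn A : ℤ) * mnr C J : ℤ) : ℚ) = ((mnr C J0 * z : ℤ) : ℚ) := by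
          push_cast
          rw [← ha J, ← hz]
          ring
        exact_mod_cast h3
      have := Int.natAbs_dvd_natAbs.2 h2
      rwa [Int.natAbs_natCast] at this
  -- (d)
  have hunit : IsUnit (C0.map (Int.cast : ℤ → ℚ)) := by
    rw [Matrix.isUnit_iff_isUnit_det, hcastdet]
    exact IsUnit.mk0 _ hc0q
  have hinj : Function.Injective (C0.map (Int.cast : ℤ → ℚ)).mulVec :=
    Matrix.mulVec_injective_iff_isUnit.2 hunit
  have hcomap : lam1 A = (LinearMap.range C0.mulVecLin).toAddSubgroup.comap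
      C.mulVecLin.toAddMonoidHom := by
    ext x
    rw [mem_lam1, AddSubgroup.mem_comap]
    show _ ↔ C.mulVec x ∈ LinearMap.range C0.mulVecLin
    rw [LinearMap.mem_range]
    constructor
    · rintro ⟨z, hz⟩
      refine ⟨z, ?_⟩
      apply cst_injective
      show cst (C0.mulVec z) = cst (C.mulVec x)
      rw [cst_mulVec, cst_mulVec, ← hCA, ← Matrix.mulVec_mulVec, hz]
    · rintro ⟨z, hz⟩
      refine ⟨z, ?_⟩
      apply hinj
      have hz' : C0.mulVec z = C.mulVec x := hz
      rw [Matrix.mulVec_mulVec, hCA, ← cst_mulVec, ← cst_mulVec, hz']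
  rw [hcomap, AddSubgroup.index_comap_of_surjective _ (by exact hsurj),
    index_range_mulVecLin C0 (by rw [hdet0]; exact hc0), hdn, hdet0]

end Fermat.Agent.S17.SL
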