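/-
S17 / SL-PADIC  (Mathlib only).   log (dn A) = ∑_p log max_J |minor_J|_p.

PROOF.  For q : ℚ and p prime:  padicNorm p q ≤ p ^ (padicValNat p q.den), with equality if p ∣ q.den
(then p ∤ q.num) [padicNorm.eq_zpow_of_nonzero, padicValRat_def]; if p ∤ q.den: padicNorm p q ≤ 1.
padicValNat p (lcm) = sup of the padicValNat p (den) (`Nat.factorization_lcm`, Finset induction), attained at
some J (the index set is nonempty: J0); if the sup is 0 take J = J0 (minor = 1, norm 1).
-/
import Fermat.Agent.S17.SL.Defs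

set_option autoImplicit false

namespace Fermat.Agent.S17.SL

open Matrix

variable {k : ℕ} {ι : Type*} [Fintype ι] [DecidableEq ι]

/-- the norm of a rational number in terms of its denominator -/
theorem padicNorm_le_den (p : ℕ) [hp : Fact p.Prime] (q : ℚ) :
    padicNorm p q ≤ (p : ℚ) ^ (padicValNat p q.den) := by
  have hp1 : (1 : ℚ) ≤ p := by exact_mod_cast hp.out.one_lt.le
  by_cases hq : q = 0
  · rw [hq, padicNorm.zero]
    positivity
  · rw [padicNorm.eq_zpow_of_nonzero hq, ← zpow_natCast]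
    apply zpow_le_zpow_right₀ hp1
    unfold padicValRat
    have : (0 : ℤ) ≤ (padicValInt p q.num : ℤ) := Int.natCast_nonneg _
    omega

theorem padicNorm_eq_den (p : ℕ) [hp : Fact p.Prime] (q : ℚ) (h : padicValNat p q.den ≠ 0) :
    padicNorm p q = (p : ℚ) ^ (padicValNat p q.den) := by
  have hpd : p ∣ q.den := by
    by_contra hnd
    exact h (padicValNat.eq_zero_of_not_dvd hnd)
  have hq : q ≠ 0 := by
    rintro rfl
    simp at h
  have hnum : padicValInt p q.num = 0 := by
    apply padicValInt.eq_zero_of_not_dvd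
    intro hdvd
    have h1 : p ∣ q.num.natAbs := Int.natCast_dvd.1 hdvd
    have h2 := Nat.dvd_gcd h1 hpd
    rw [q.reduced] at h2
    exact hp.out.one_lt.ne' (Nat.dvd_one.1 h2)
  rw [padicNorm.eq_zpow_of_nonzero hq, ← zpow_natCast]
  congr 1
  unfold padicValRat
  rw [hnum]
  simp

theorem padicValNat_le_of_dvd' (p : ℕ) [hp : Fact p.Prime] {a b : ℕ} (hb : b ≠ 0) (h : a ∣ b) :
    padicValNat p a ≤ padicValNat p b := by
  rw [← padicValNat_dvd_iff_le hb]
  exact dvd_trans pow_padicValNat_dvd h

theorem padicValNat_lcm_attained (p : ℕ) [hp : Fact p.Prime] {α : Type*} (f : α → ℕ)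
    (hf : ∀ a, f a ≠ 0) (s : Finset α) :
    padicValNat p (s.lcm f) = 0 ∨ ∃ a ∈ s, padicValNat p (s.lcm f) = padicValNat p (f a) := by
  classical
  induction s using Finset.induction_on with
  | empty => left; simp
  | insert b s hb ih =>
    have hL : s.lcm f ≠ 0 := by
      rw [Ne, Finset.lcm_eq_zero_iff]
      rintro ⟨a, -, ha⟩
      exact hf a ha
    have h1 : padicValNat p ((insert b s).lcm f) =
        max (padicValNat p (f b)) (padicValNat p (s.lcm f)) := by
      rw [Finset.lcm_insert]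
      show padicValNat p (Nat.lcm (f b) (s.lcm f)) = _
      rw [← Nat.factorization_def _ hp.out, Nat.factorization_lcm (hf b) hL,
        ← Nat.factorization_def _ hp.out, ← Nat.factorization_def _ hp.out]
      rfl
    rcases le_total (padicValNat p (s.lcm f)) (padicValNat p (f b)) with h2 | h2
    · right
      exact ⟨b, Finset.mem_insert_self b s, by rw [h1, max_eq_left h2]⟩
    · rw [h1, max_eq_right h2]
      rcases ih with h3 | ⟨a, ha, h3⟩
      · left; exact h3
      · right; exact ⟨a, Finset.mem_insert_of_mem ha, h3⟩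

theorem dn_ne_zero' (A : Matrix (Fin k) ι ℚ) : dn A ≠ 0 := by
  unfold dn
  rw [Ne, Finset.lcm_eq_zero_iff]
  rintro ⟨J, -, hJ⟩
  exact (mnr A J).den_ne_zero hJ

theorem padic_le (A : Matrix (Fin k) ι ℚ) (p : ℕ) [Fact p.Prime] (J : Fin k → ι) :
    padicNorm p (mnr A J) ≤ (p : ℚ) ^ (padicValNat p (dn A)) := by
  have hp1 : (1 : ℚ) ≤ p := by exact_mod_cast (Fact.out : p.Prime).one_lt.le
  refine le_trans (padicNorm_le_den p _) (pow_le_pow_right₀ hp1 ?_)
  apply padicValNat_le_of_dvd' p (dn_ne_zero' A)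
  exact Finset.dvd_lcm (f := fun J : Fin k → ι => (mnr A J).den) (Finset.mem_univ J)

theorem padic_exists (A : Matrix (Fin k) ι ℚ) (J0 : Fin k → ι) (h1 : A.submatrix id J0 = 1)
    (p : ℕ) [Fact p.Prime] :
    ∃ J : Fin k → ι, padicNorm p (mnr A J) = (p : ℚ) ^ (padicValNat p (dn A)) := by
  by_cases h0 : padicValNat p (dn A) = 0
  · refine ⟨J0, ?_⟩
    rw [h0, pow_zero, mnr, h1, Matrix.det_one, padicNorm.one]
  · rcases padicValNat_lcm_attained p (fun J : Fin k → ι => (mnr A J).den)
      (fun J => (mnr A J).den_ne_zero) Finset.univ with h2 | ⟨J, -, h2⟩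
    · exact absurd h2 h0
    · refine ⟨J, ?_⟩
      have h3 : padicValNat p (dn A) = padicValNat p (mnr A J).den := h2
      rw [h3]
      apply padicNorm_eq_den
      rw [← h3]
      exact h0

/-- the product formula for `dn`:  dn A = ∏_{p ∣ dn A} p ^ v_p(dn A). (`Nat.factorization_prod_pow_eq_self`) -/
theorem dn_eq_prod (A : Matrix (Fin k) ι ℚ) :
    (dn A : ℝ) = ∏ p ∈ (dn A).primeFactors, (p : ℝ) ^ (padicValNat p (dn A)) := by
  have h1 := Nat.prod_factorization_pow_eq_self (dn_ne_zero' A)
  conv_lhs => rw [← h1]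
  rw [Finsupp.prod, Nat.support_factorization]
  push_cast
  apply Finset.prod_congr rfl
  intro p hp
  rw [Nat.factorization_def _ (Nat.prime_of_mem_primeFactors hp)]

end Fermat.Agent.S17.SL
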