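/-
S17 / SL-SMALL  (Mathlib only).   (i) a small integral vector in the kernel.

PROOF.  J0 is injective (two equal columns of the identity matrix).  ε := complement of range J0, card ε = e.
I := dn A = (lam1 A).index ≥ 1.  B := the largest natural number with B ^ e ≤ I (`Nat.findGreatest`, or Nat.nthRoot;
B ≤ I), so I < (B+1)^e.  The (B+1)^e vectors y : ι → ℤ with y = 0 on range J0 and values in {0..B} on ε
are more than the I classes of (ι → ℤ) ⧸ lam1 A (`Fintype.exists_ne_map_eq_of_card_lt` /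
`Finset.exists_ne_map_eq_of_card_lt_of_maps_to`): w = y - y' ∈ lam1 A, w ≠ 0, w = 0 on range J0, |w j| ≤ B.
A w = z integral.  x := w - ∑ i, z i • Pi.single (J0 i) 1.  A (Pi.single (J0 i) 1) = column J0 i = e_i, so A x = 0.
x = w off range J0, so x ≠ 0 and |x j| ≤ B there;  x (J0 i) = - z i and |z i| = |∑_j A i j w j| ≤ card ι * B by hent.
-/
import Fermat.Agent.S17.SL.Idx

set_option autoImplicit false

namespace Fermat.Agent.S17.SL

open Matrix

variable {k : ℕ} {ι : Type*} [Fintype ι] [DecidableEq ι]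

theorem small (A : Matrix (Fin k) ι ℚ) (J0 : Fin k → ι) (h1 : A.submatrix id J0 = 1)
    (hent : ∀ i j, |A i j| ≤ 1) (e : ℕ) (he : 0 < e) (hcard : Fintype.card ι = k + e) :
    ∃ (x : ι → ℤ) (B : ℕ), x ≠ 0 ∧ A.mulVec (cst x) = 0 ∧ B ^ e ≤ dn A ∧
      ∀ j, |x j| ≤ (Fintype.card ι * B : ℕ) := by
  classical
  have hA : ∀ r i, A r (J0 i) = if r = i then 1 else 0 := by
    intro r i
    have := congrFun (congrFun h1 r) i
    rwa [Matrix.submatrix_apply, Matrix.one_apply, id] at this
  have hinj : Function.Injective J0 := by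
    intro a b hab
    have h2 := hA a a
    rw [hab, hA a b] at h2
    by_contra hne
    simp [hne] at h2
  set ε : Finset ι := Finset.univ \ Finset.univ.image J0 with hε
  have hεcard : ε.card = e := by
    rw [hε, Finset.card_sdiff_of_subset (Finset.subset_univ _), Finset.card_univ,
      Finset.card_image_of_injective _ hinj, Finset.card_univ, Fintype.card_fin, hcard]
    omega
  have hmemε : ∀ j, j ∈ ε ↔ ∀ i, J0 i ≠ j := by
    intro j
    simp [hε]
  have hI : 0 < dn A := dn_pos A
  set B := Nat.findGreatest (fun B => B ^ e ≤ dn A) (dn A) with hB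
  have hB1 : B ^ e ≤ dn A :=
    Nat.findGreatest_spec (P := fun B => B ^ e ≤ dn A) (m := 0) (Nat.zero_le _)
      (by simp [he.ne'])
  have hB2 : dn A < (B + 1) ^ e := by
    by_contra hcon
    push Not at hcon
    have h2 : B + 1 ≤ dn A := le_trans (Nat.le_self_pow he.ne' _) hcon
    have := Nat.le_findGreatest (P := fun B => B ^ e ≤ dn A) h2 hcon
    omega
  let y : (ε → Fin (B + 1)) → ι → ℤ :=
    fun g j => if h : j ∈ ε then ((g ⟨j, h⟩ : ℕ) : ℤ) else 0
  have hidx := index_lam1 A J0 h1
  have hfin : Finite ((ι → ℤ) ⧸ lam1 A) := by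
    apply Nat.finite_of_card_ne_zero
    show (lam1 A).index ≠ 0
    rw [hidx]
    exact hI.ne'
  have hninj : ¬ Function.Injective
      (fun g => (QuotientAddGroup.mk (y g) : (ι → ℤ) ⧸ lam1 A)) := by
    intro hinj'
    have h2 := Nat.card_le_card_of_injective _ hinj'
    have h3 : Nat.card ((ι → ℤ) ⧸ lam1 A) = dn A := hidx
    rw [h3, Nat.card_eq_fintype_card, Fintype.card_fun, Fintype.card_fin, Fintype.card_coe,
      hεcard] at h2
    omega
  rw [Function.Injective] at hninj
  push Not at hninj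
  obtain ⟨g, g', hgg, hne⟩ := hninj
  have hw : -y g + y g' ∈ lam1 A := QuotientAddGroup.eq.1 hgg
  obtain ⟨w, hwdef⟩ : ∃ w, w = -y g + y g' := ⟨_, rfl⟩
  rw [← hwdef] at hw
  obtain ⟨z, hz⟩ := hw
  have hw0 : ∀ j, j ∉ ε → w j = 0 := by
    intro j hj
    rw [hwdef]
    simp [y, hj]
  have hwB : ∀ j, |w j| ≤ (B : ℤ) := by
    intro j
    by_cases hj : j ∈ ε
    · rw [hwdef]
      have h2 := (g ⟨j, hj⟩).2
      have h3 := (g' ⟨j, hj⟩).2
      simp only [Pi.add_apply, Pi.neg_apply, y, hj, dif_pos]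
      rw [abs_le]
      constructor <;> omega
    · rw [hw0 j hj]
      simp
  obtain ⟨j1, hj1, hwj1⟩ : ∃ j ∈ ε, w j ≠ 0 := by
    by_contra hcon
    push Not at hcon
    apply hne
    funext a
    obtain ⟨a, ha⟩ := a
    have h2 := hcon a ha
    rw [hwdef] at h2
    simp only [Pi.add_apply, Pi.neg_apply, y, ha, dif_pos] at h2
    apply Fin.ext
    omega
  let u : ι → ℤ := fun j => ∑ i, if J0 i = j then z i else 0
  have hu0 : ∀ j ∈ ε, u j = 0 := by
    intro j hj
    apply Finset.sum_eq_zero
    intro i _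
    rw [if_neg ((hmemε j).1 hj i)]
  have hu1 : ∀ i, u (J0 i) = z i := by
    intro i
    show ∑ i', (if J0 i' = J0 i then z i' else 0) = z i
    rw [Finset.sum_eq_single i]
    · simp
    · intro b _ hb
      rw [if_neg (fun h => hb (hinj h))]
    · intro h
      exact absurd (Finset.mem_univ i) h
  have hAu : A.mulVec (cst u) = cst z := by
    funext r
    show ∑ j, A r j * ((∑ i, if J0 i = j then z i else 0 : ℤ) : ℚ) = (z r : ℚ)
    have h2 : ∀ j, A r j * ((∑ i, if J0 i = j then z i else 0 : ℤ) : ℚ) =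
        ∑ i, if J0 i = j then A r (J0 i) * (z i : ℚ) else 0 := by
      intro j
      push_cast
      rw [Finset.mul_sum]
      apply Finset.sum_congr rfl
      intro i _
      by_cases h : J0 i = j
      · simp [h]
      · simp [h]
    simp_rw [h2]
    rw [Finset.sum_comm]
    simp only [Finset.sum_ite_eq, Finset.mem_univ, if_true, hA]
    simp
  have hzB : ∀ i, |z i| ≤ ((Fintype.card ι * B : ℕ) : ℤ) := by
    intro i
    have h2 : (z i : ℚ) = ∑ j, A i j * (w j : ℚ) := (congrFun hz i).symm
    have h3 : |(z i : ℚ)| ≤ (Fintype.card ι * B : ℕ) := by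
      rw [h2]
      refine le_trans (Finset.abs_sum_le_sum_abs _ _) ?_
      have h4 : ∀ j ∈ (Finset.univ : Finset ι), |A i j * (w j : ℚ)| ≤ (B : ℚ) := by
        intro j _
        rw [abs_mul]
        have h5 : |(w j : ℚ)| ≤ (B : ℚ) := by exact_mod_cast hwB j
        calc |A i j| * |(w j : ℚ)| ≤ 1 * (B : ℚ) :=
              mul_le_mul (hent i j) h5 (abs_nonneg _) zero_le_one
          _ = B := one_mul _
      refine le_trans (Finset.sum_le_sum h4) ?_
      rw [Finset.sum_const, Finset.card_univ, nsmul_eq_mul]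
      push_cast
      exact le_rfl
    exact_mod_cast h3
  refine ⟨w - u, B, ?_, ?_, hB1, ?_⟩
  · intro h0
    have := congrFun h0 j1
    rw [Pi.sub_apply, hu0 j1 hj1, sub_zero] at this
    exact hwj1 this
  · have h2 : cst (w - u) = cst w - cst u := by
      funext j
      simp [cst]
    rw [h2, Matrix.mulVec_sub, hz, hAu, sub_self]
  · intro j
    by_cases hj : j ∈ ε
    · rw [Pi.sub_apply, hu0 j hj, sub_zero]
      refine le_trans (hwB j) ?_
      have h2 : 1 ≤ Fintype.card ι := by omega
      have h3 : B ≤ Fintype.card ι * B := Nat.le_mul_of_pos_left B h2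
      exact_mod_cast h3
    · rw [hmemε] at hj
      push Not at hj
      obtain ⟨i, rfl⟩ := hj
      have hni : J0 i ∉ ε := by
        rw [hmemε]
        push Not
        exact ⟨i, rfl⟩
      rw [Pi.sub_apply, hw0 _ hni, hu1, zero_sub, abs_neg]
      exact hzB i

end Fermat.Agent.S17.SL
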