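/-
S17 / SL-CONV  (Mathlib only).   (ii) e independent integral kernel vectors of size ≤ R  ⇒  dn A ≤ e! R^e.

PROOF.  J0 injective; ε := complement of range J0, f : Fin e ≃ ε.   Y := the e × e matrix  Y i l = x i (f l).
 (a) det Y ≠ 0: if ∑ c_i Y_i = 0 (c rational, clear denominators: integral) then u = ∑ c_i x_i ∈ ker A vanishes off
     range J0, and A u = (u (J0 i))_i  (columns J0 = identity), so u = 0, so c = 0 by hind.
 (b) Λ' := {y : Fin e → ℤ | the extension by zero of y (through f) lies in lam1 A}.  Λ'.index = (lam1 A).index: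
     the map (Fin e → ℤ) → (ι → ℤ) ⧸ lam1 A is onto because Pi.single (J0 i) 1 ∈ lam1 A.
     (or: only `(lam1 A).index ≤ Λ'.index`, i.e. the surjectivity, is needed).
 (c) the rows Y_i lie in Λ' (x i - ext (Y i) is supported on range J0, so it is in lam1 A; x i ∈ lam1 A).
     So the subgroup H spanned by the rows has Λ'.index ∣ H.index (`AddSubgroup.index_dvd_of_le`) and
     H.index = |det Y| (`Submodule.natAbs_det_equiv` / `AddSubgroup.index_eq_natAbs_det`) ≠ 0.
 (d) |det Y| ≤ e! R^e : `Matrix.det_le` with abv = AbsoluteValue.abs.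
-/
import Fermat.Agent.S17.SL.Idx

set_option autoImplicit false

namespace Fermat.Agent.S17.SL

open Matrix

variable {k : ℕ} {ι : Type*} [Fintype ι] [DecidableEq ι]

theorem conv (A : Matrix (Fin k) ι ℚ) (J0 : Fin k → ι) (h1 : A.submatrix id J0 = 1)
    (e : ℕ) (hcard : Fintype.card ι = k + e) (x : Fin e → ι → ℤ)
    (hx : ∀ i, A.mulVec (cst (x i)) = 0) (hind : LinearIndependent ℤ x)
    (R : ℕ) (hR : ∀ i j, |x i j| ≤ (R : ℤ)) : dn A ≤ e.factorial * R ^ e := by
  classical
  have hA : ∀ r i, A r (J0 i) = if r = i then 1 else 0 := by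
    intro r i
    have := congrFun (congrFun h1 r) i
    rwa [Matrix.submatrix_apply, Matrix.one_apply, id] at this
  have hinj : Function.Injective J0 := by
    intro a b hab
    have h2 := hA a a
    rw [hab, hA a b] at h2
    by_contra hne
    simp [hne] at h2
  set ε : Finset ι := Finset.univ \ Finset.univ.image J0 with hε
  have hεcard : ε.card = e := by
    rw [hε, Finset.card_sdiff_of_subset (Finset.subset_univ _), Finset.card_univ,
      Finset.card_image_of_injective _ hinj, Finset.card_univ, Fintype.card_fin, hcard]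
    omega
  have hmemε : ∀ j, j ∈ ε ↔ ∀ i, J0 i ≠ j := by
    intro j
    simp [hε]
  let f : Fin e ≃ ε := (Finset.equivFinOfCardEq hεcard).symm
  let φ : (ι → ℤ) →+ (Fin e → ℤ) :=
    { toFun := fun v l => v (f l), map_zero' := rfl, map_add' := fun _ _ => rfl }
  have hφ : ∀ v l, φ v l = v (f l) := fun _ _ => rfl
  have hφsurj : Function.Surjective φ := by
    intro t
    refine ⟨fun j => if h : j ∈ ε then t (f.symm ⟨j, h⟩) else 0, ?_⟩
    funext l
    rw [hφ, dif_pos (f l).2]
    simp
  have hv0 : ∀ v : ι → ℤ, φ v = 0 → ∀ j ∈ ε, v j = 0 := by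
    intro v hv j hj
    have := congrFun hv (f.symm ⟨j, hj⟩)
    rw [hφ, Equiv.apply_symm_apply] at this
    exact this
  have hS : ∀ v : ι → ℤ, φ v = 0 → A.mulVec (cst v) = cst (fun r => v (J0 r)) := by
    intro v hv
    funext r
    show ∑ j, A r j * (v j : ℚ) = (v (J0 r) : ℚ)
    rw [Finset.sum_eq_single (J0 r)]
    · rw [hA, if_pos rfl, one_mul]
    · intro j _ hj
      by_cases hjε : j ∈ ε
      · rw [hv0 v hv j hjε]
        simp
      · rw [hmemε] at hjε
        push Not at hjε
        obtain ⟨i, rfl⟩ := hjε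
        rw [hA, if_neg (fun h => hj (by rw [h])), zero_mul]
    · intro h
      exact absurd (Finset.mem_univ _) h
  have hker : φ.ker ≤ lam1 A := fun v hv => ⟨_, hS v hv⟩
  let ψ : (ι → ℤ) →+ (Fin k → ℚ) :=
    { toFun := fun v => A.mulVec (cst v)
      map_zero' := by
        have : cst (0 : ι → ℤ) = 0 := by funext j; simp [cst]
        rw [this, Matrix.mulVec_zero]
      map_add' := fun a b => by
        have : cst (a + b) = cst a + cst b := by funext j; simp [cst]
        rw [this, Matrix.mulVec_add] }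
  have hψ : ∀ v, ψ v = A.mulVec (cst v) := fun _ => rfl
  let Y : Matrix (Fin e) (Fin e) ℤ := fun i l => x i (f l)
  have hφsum : ∀ c : Fin e → ℤ, φ (∑ i, c i • x i) = Yᵀ.mulVec c := by
    intro c
    funext l
    rw [map_sum, Finset.sum_apply]
    show _ = ∑ i, Y i l * c i
    apply Finset.sum_congr rfl
    intro i _
    rw [map_zsmul, Pi.smul_apply, hφ, smul_eq_mul, mul_comm]
  have hdet : Y.det ≠ 0 := by
    intro h0
    obtain ⟨c, hc0, hc⟩ := Matrix.exists_vecMul_eq_zero_iff.2 h0
    apply hc0
    have hu : φ (∑ i, c i • x i) = 0 := by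
      rw [hφsum, Matrix.mulVec_transpose, hc]
    have hAu : A.mulVec (cst (∑ i, c i • x i)) = 0 := by
      rw [← hψ, map_sum]
      apply Finset.sum_eq_zero
      intro i _
      rw [map_zsmul, hψ, hx i, smul_zero]
    have hu0 : ∑ i, c i • x i = 0 := by
      funext j
      by_cases hj : j ∈ ε
      · exact hv0 _ hu j hj
      · rw [hmemε] at hj
        push Not at hj
        obtain ⟨i, rfl⟩ := hj
        have h2 := hS _ hu
        rw [hAu] at h2
        have h3 := congrFun h2 i
        have h4 : (0 : ℚ) = (((∑ i, c i • x i : ι → ℤ) (J0 i) : ℤ) : ℚ) := h3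
        exact (Int.cast_eq_zero.1 h4.symm)
    funext i
    exact Fintype.linearIndependent_iff.1 hind c hu0 i
  have hidx := index_lam1 A J0 h1
  have h2 : ((lam1 A).map φ).index = (lam1 A).index :=
    AddSubgroup.index_map_eq _ hφsurj hker
  have hH : (LinearMap.range Yᵀ.mulVecLin).toAddSubgroup ≤ (lam1 A).map φ := by
    rintro _ ⟨c, rfl⟩
    refine ⟨∑ i, c i • x i, ?_, hφsum c⟩
    have hxm : ∀ i, x i ∈ lam1 A := by
      intro i
      refine ⟨0, ?_⟩
      rw [hx i]
      funext r
      simp [cst]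
    exact sum_mem fun i _ => zsmul_mem (hxm i) _
  have h3 := AddSubgroup.index_dvd_of_le hH
  rw [index_range_mulVecLin _ (by rwa [Matrix.det_transpose]), Matrix.det_transpose, h2,
    hidx] at h3
  have h4 : dn A ≤ Y.det.natAbs := Nat.le_of_dvd (Int.natAbs_pos.2 hdet) h3
  have h5 := Matrix.det_le (A := Y) (abv := AbsoluteValue.abs) (x := (R : ℤ))
    (fun i j => hR i (f j))
  rw [Fintype.card_fin, AbsoluteValue.abs_apply, nsmul_eq_mul] at h5
  have h6 : (Y.det.natAbs : ℤ) ≤ ((e.factorial * R ^ e : ℕ) : ℤ) := by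
    rw [Int.natCast_natAbs]
    push_cast
    exact h5
  exact le_trans h4 (by exact_mod_cast h6)

end Fermat.Agent.S17.SL
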